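import Mathlib

/-!
# Case I of Fermat's Last Theorem for p = 5, 7, 11, 13 via Sophie Germain / Legendre

Generic theorem `sophieGermain`: for an odd prime `p` and an auxiliary prime `q` such that
(1) `x^p + y^p + z^p = 0` in `ZMod q` forces one of `x, y, z` to vanish and
(2) `p` is not a `p`-th power in `ZMod q`,
any pairwise coprime integer solution of `x^p + y^p + z^p = 0` has `p ∣ x*y*z`.
-/

set_option autoImplicit false

namespace Fermat.Agent.Lib.FLTp.CaseI

open Finset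

/-- `phi p y z = ∑_{i<p} y^i (-z)^(p-1-i)`; for odd `p`, `phi p y z * (y + z) = y^p + z^p`. -/
def phi (p : ℕ) (y z : ℤ) : ℤ := ∑ i ∈ range p, y ^ i * (-z) ^ (p - 1 - i)

lemma phi_mul (p : ℕ) (hp : Odd p) (y z : ℤ) : phi p y z * (y + z) = y ^ p + z ^ p := by
  have h := Commute.geom_sum₂_mul (Commute.all y (-z)) p
  rw [sub_neg_eq_add, hp.neg_pow, sub_neg_eq_add] at h
  exact h

/-- `phi p y z ≡ p * y^(p-1)` modulo `y + z`. -/
lemma phi_modEq (p : ℕ) (y z : ℤ) : (y + z) ∣ phi p y z - p * y ^ (p - 1) := by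
  have h1 : (p : ℤ) * y ^ (p - 1) = ∑ i ∈ range p, y ^ i * y ^ (p - 1 - i) := by
    rw [Finset.sum_congr rfl (g := fun _ => y ^ (p - 1))]
    · simp
    · intro i hi
      rw [← pow_add]
      congr 1
      have := Finset.mem_range.1 hi
      omega
  rw [h1, phi, ← Finset.sum_sub_distrib]
  apply Finset.dvd_sum
  intro i _
  rw [← mul_sub]
  apply Dvd.dvd.mul_left
  have h2 : (-z) - y ∣ (-z) ^ (p - 1 - i) - y ^ (p - 1 - i) := sub_dvd_pow_sub_pow _ _ _
  have h3 : y + z ∣ (-z) - y := ⟨-1, by ring⟩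
  exact h3.trans h2

/-- Coprimality of the two factors of `y^p + z^p`. -/
lemma isCoprime_add_phi {p : ℕ} (hp : p.Prime) {y z : ℤ} (hyz : IsCoprime y z)
    (hpyz : ¬ (p : ℤ) ∣ y + z) : IsCoprime (y + z) (phi p y z) := by
  apply isCoprime_of_prime_dvd
  · rintro ⟨h1, -⟩
    exact hpyz (h1 ▸ dvd_zero _)
  · intro r hr h1 h2
    have h3 : r ∣ (p : ℤ) * y ^ (p - 1) := by
      have := (h1.trans (phi_modEq p y z))
      have h4 := dvd_sub h2 this
      simpa using h4
    rcases hr.dvd_or_dvd h3 with h | h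
    · -- r ∣ p
      have hpp : Prime (p : ℤ) := Nat.prime_iff_prime_int.1 hp
      have hass : Associated r (p : ℤ) := hr.associated_of_dvd hpp h
      exact hpyz (hass.symm.dvd.trans h1)
    · have hy : r ∣ y := hr.dvd_of_dvd_pow h
      have hz : r ∣ z := (dvd_add_right hy).1 h1
      exact hr.not_isUnit (hyz.isUnit_of_dvd' hy hz)

/-- From `x^p + y^p + z^p = 0`, `y, z` coprime and `p ∤ x`:
`y + z` and `phi p y z` are `p`-th powers. -/
lemma exists_pow_eq {p : ℕ} (hp : p.Prime) (hodd : Odd p) {x y z : ℤ}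
    (h : x ^ p + y ^ p + z ^ p = 0) (hyz : IsCoprime y z) (hpx : ¬ (p : ℤ) ∣ x) :
    (∃ a : ℤ, y + z = a ^ p) ∧ ∃ α : ℤ, phi p y z = α ^ p := by
  have hprod : (y + z) * phi p y z = (-x) ^ p := by
    rw [mul_comm, phi_mul p hodd, hodd.neg_pow]; linarith
  have hpyz : ¬ (p : ℤ) ∣ y + z := by
    intro hd
    have : (p : ℤ) ∣ (-x) ^ p := hprod ▸ hd.mul_right _
    have hpp : Prime (p : ℤ) := Nat.prime_iff_prime_int.1 hp
    exact hpx ((dvd_neg).1 (hpp.dvd_of_dvd_pow this))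
  exact Int.eq_pow_of_mul_eq_pow_odd (isCoprime_add_phi hp hyz hpyz) hodd hprod

/-- Image of `phi` in `ZMod q`. -/
lemma phi_cast (p q : ℕ) (y z : ℤ) :
    ((phi p y z : ℤ) : ZMod q) = ∑ i ∈ range p, (y : ZMod q) ^ i * (-(z : ZMod q)) ^ (p - 1 - i) := by
  simp [phi]

section main

variable {p q : ℕ}

/-- Core of Sophie Germain: the case `q ∣ x`. -/
lemma sophieGermain_aux (hp : p.Prime) (hodd : Odd p) (hq : q.Prime)
    (h1 : ∀ x y z : ZMod q, x ^ p + y ^ p + z ^ p = 0 → x = 0 ∨ y = 0 ∨ z = 0)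
    (h2 : ∀ x : ZMod q, x ^ p ≠ (p : ZMod q))
    {x y z : ℤ} (h : x ^ p + y ^ p + z ^ p = 0)
    (hxy : IsCoprime x y) (hyz : IsCoprime y z) (hzx : IsCoprime z x)
    (hpx : ¬ (p : ℤ) ∣ x) (hpy : ¬ (p : ℤ) ∣ y) (hpz : ¬ (p : ℤ) ∣ z)
    (hqx : (q : ℤ) ∣ x) : False := by
  have : Fact q.Prime := ⟨hq⟩
  have hqp : Prime (q : ℤ) := Nat.prime_iff_prime_int.1 hq
  obtain ⟨⟨a, ha⟩, ⟨α, hα⟩⟩ := exists_pow_eq hp hodd h hyz hpx
  have h' : y ^ p + z ^ p + x ^ p = 0 := by linarith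
  obtain ⟨⟨b, hb⟩, -⟩ := exists_pow_eq hp hodd h' hzx hpy
  have h'' : z ^ p + x ^ p + y ^ p = 0 := by linarith
  obtain ⟨⟨c, hc⟩, ⟨γ, hγ⟩⟩ := exists_pow_eq hp hodd h'' hxy hpz
  have hx0 : (x : ZMod q) = 0 := (ZMod.intCast_zmod_eq_zero_iff_dvd x q).2 hqx
  have hy0 : (y : ZMod q) ≠ 0 := by
    intro hy
    have : (q : ℤ) ∣ y := (ZMod.intCast_zmod_eq_zero_iff_dvd y q).1 hy
    exact hqp.not_isUnit (hxy.isUnit_of_dvd' hqx this)
  have hz0 : (z : ZMod q) ≠ 0 := by
    intro hz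
    have : (q : ℤ) ∣ z := (ZMod.intCast_zmod_eq_zero_iff_dvd z q).1 hz
    exact hqp.not_isUnit (hzx.isUnit_of_dvd' this hqx)
  -- c^p + b^p + (-a)^p = 2x ≡ 0
  have hsum : (c : ZMod q) ^ p + (b : ZMod q) ^ p + (-(a : ZMod q)) ^ p = 0 := by
    have : c ^ p + b ^ p + (-a) ^ p = 2 * x := by
      rw [hodd.neg_pow, ← ha, ← hb, ← hc]; ring
    have h3 := congrArg (Int.cast : ℤ → ZMod q) this
    push_cast at h3
    rw [h3, hx0, mul_zero]
  have hpne : p ≠ 0 := hp.ne_zero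
  rcases h1 _ _ _ hsum with hc0 | hb0 | ha0
  · -- q ∣ c ⇒ q ∣ x + y ⇒ q ∣ y
    have h3 := congrArg (Int.cast : ℤ → ZMod q) hc
    push_cast at h3
    rw [hc0, zero_pow hpne, hx0, zero_add] at h3
    exact hy0 h3
  · have h3 := congrArg (Int.cast : ℤ → ZMod q) hb
    push_cast at h3
    rw [hb0, zero_pow hpne, hx0, add_zero] at h3
    exact hz0 h3
  · have ha0' : (a : ZMod q) = 0 := neg_eq_zero.1 ha0
    have h3 := congrArg (Int.cast : ℤ → ZMod q) ha
    push_cast at h3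
    rw [ha0', zero_pow hpne] at h3
    have hzy : -(z : ZMod q) = (y : ZMod q) := by
      rw [neg_eq_iff_add_eq_zero, add_comm]; exact h3
    -- α^p = p * y^(p-1)
    have hα' : (α : ZMod q) ^ p = (p : ZMod q) * (y : ZMod q) ^ (p - 1) := by
      have h4 := congrArg (Int.cast : ℤ → ZMod q) hα
      rw [phi_cast] at h4
      push_cast at h4
      rw [← h4, hzy]
      rw [Finset.sum_congr rfl (g := fun _ => (y : ZMod q) ^ (p - 1))]
      · simp
      · intro i hi
        rw [← pow_add]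
        congr 1
        have := Finset.mem_range.1 hi
        omega
    -- γ^p = y^(p-1)
    have hγ' : (γ : ZMod q) ^ p = (y : ZMod q) ^ (p - 1) := by
      have h4 := congrArg (Int.cast : ℤ → ZMod q) hγ
      rw [phi_cast] at h4
      push_cast at h4
      rw [← h4, hx0]
      rw [Finset.sum_eq_single 0]
      · simp only [pow_zero, one_mul, Nat.sub_zero]
        have heven : Even (p - 1) := hp.even_sub_one (by
          rintro rfl; exact absurd hodd (by decide))
        exact heven.neg_pow _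
      · intro i _ hi
        rw [zero_pow hi, zero_mul]
      · intro h0
        exact absurd (Finset.mem_range.2 hp.pos) h0
    have hγ0 : (γ : ZMod q) ≠ 0 := by
      intro h0
      rw [h0, zero_pow hpne] at hγ'
      exact hy0 (pow_eq_zero_iff (n := p - 1) (by
        have := hp.two_le; omega) |>.1 hγ'.symm)
    apply h2 ((α : ZMod q) / (γ : ZMod q))
    rw [div_pow, hα', hγ', mul_div_assoc, div_self, mul_one]
    rw [← hγ']
    exact pow_ne_zero _ hγ0

/-- **Sophie Germain / Legendre**: Case I of FLT for exponent `p` with auxiliary prime `q`. -/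
theorem sophieGermain (hp : p.Prime) (hodd : Odd p) (hq : q.Prime)
    (h1 : ∀ x y z : ZMod q, x ^ p + y ^ p + z ^ p = 0 → x = 0 ∨ y = 0 ∨ z = 0)
    (h2 : ∀ x : ZMod q, x ^ p ≠ (p : ZMod q))
    {x y z : ℤ} (h : x ^ p + y ^ p + z ^ p = 0)
    (hxy : IsCoprime x y) (hyz : IsCoprime y z) (hzx : IsCoprime z x) :
    (p : ℤ) ∣ x * y * z := by
  by_contra hdiv
  have hpp : Prime (p : ℤ) := Nat.prime_iff_prime_int.1 hp
  have hpx : ¬ (p : ℤ) ∣ x := fun hd => hdiv ((hd.mul_right y).mul_right z)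
  have hpy : ¬ (p : ℤ) ∣ y := fun hd => hdiv ((hd.mul_left x).mul_right z)
  have hpz : ¬ (p : ℤ) ∣ z := fun hd => hdiv (hd.mul_left (x * y))
  have : Fact q.Prime := ⟨hq⟩
  have hmod : (x : ZMod q) ^ p + (y : ZMod q) ^ p + (z : ZMod q) ^ p = 0 := by
    have h3 := congrArg (Int.cast : ℤ → ZMod q) h
    push_cast at h3
    exact h3
  rcases h1 _ _ _ hmod with hx | hy | hz
  · exact sophieGermain_aux hp hodd hq h1 h2 h hxy hyz hzx hpx hpy hpz
      ((ZMod.intCast_zmod_eq_zero_iff_dvd x q).1 hx)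
  · exact sophieGermain_aux hp hodd hq h1 h2 (x := y) (y := z) (z := x) (by linarith)
      hyz hzx hxy hpy hpz hpx ((ZMod.intCast_zmod_eq_zero_iff_dvd y q).1 hy)
  · exact sophieGermain_aux hp hodd hq h1 h2 (x := z) (y := x) (z := y) (by linarith)
      hzx hxy hyz hpz hpx hpy ((ZMod.intCast_zmod_eq_zero_iff_dvd z q).1 hz)

end main


/-- Pairwise coprimality from `a^p + b^p = c^p` and `IsCoprime a b`. -/
lemma isCoprime_of_eq {p : ℕ} (hp0 : p ≠ 0) {a b c : ℤ} (h : a ^ p + b ^ p = c ^ p)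
    (hab : IsCoprime a b) : IsCoprime b c ∧ IsCoprime c a := by
  constructor
  · apply isCoprime_of_prime_dvd
    · rintro ⟨rfl, rfl⟩
      rw [zero_pow hp0, add_zero, pow_eq_zero_iff hp0] at h
      subst h
      exact not_isCoprime_zero_zero hab
    · intro r hr hb hc
      have : r ∣ a ^ p := by
        have h3 : a ^ p = c ^ p - b ^ p := by linarith
        rw [h3]
        exact dvd_sub (dvd_pow hc hp0) (dvd_pow hb hp0)
      exact hr.not_isUnit (hab.isUnit_of_dvd' (hr.dvd_of_dvd_pow this) hb)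
  · apply isCoprime_of_prime_dvd
    · rintro ⟨rfl, rfl⟩
      rw [zero_pow hp0, zero_add, pow_eq_zero_iff hp0] at h
      subst h
      exact not_isCoprime_zero_zero hab
    · intro r hr hc ha
      have : r ∣ b ^ p := by
        have h3 : b ^ p = c ^ p - a ^ p := by linarith
        rw [h3]
        exact dvd_sub (dvd_pow hc hp0) (dvd_pow ha hp0)
      exact hr.not_isUnit (hab.isUnit_of_dvd' ha (hr.dvd_of_dvd_pow this))

/-- Case I in the interface form, from the two auxiliary-prime conditions. -/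
theorem caseI_of_aux {p q : ℕ} (hp : p.Prime) (hodd : Odd p) (hq : q.Prime)
    (h1 : ∀ x y z : ZMod q, x ^ p + y ^ p + z ^ p = 0 → x = 0 ∨ y = 0 ∨ z = 0)
    (h2 : ∀ x : ZMod q, x ^ p ≠ (p : ZMod q))
    (a b c : ℤ) (h : a ^ p + b ^ p = c ^ p) (hab : IsCoprime a b)
    (hdiv : ¬ (p : ℤ) ∣ a * b * c) : False := by
  obtain ⟨hbc, hca⟩ := isCoprime_of_eq hp.ne_zero h hab
  have h' : a ^ p + b ^ p + (-c) ^ p = 0 := by rw [hodd.neg_pow]; linarith
  have := sophieGermain hp hodd hq h1 h2 h' hab hbc.neg_right hca.neg_left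
  apply hdiv
  rw [mul_neg, dvd_neg] at this
  exact this

/-! ### The auxiliary-prime conditions for `(p, q) = (5, 11), (7, 29), (11, 23), (13, 53)` -/

/-- Condition (1) when the nonzero `p`-th powers of `ZMod q` are `±1` (`q = 2p + 1`). -/
lemma cond1_of_two {p q : ℕ}
    (hS : ∀ x : ZMod q, x = 0 ∨ x ^ p = 1 ∨ x ^ p = -1)
    (h3 : (3 : ZMod q) ≠ 0) (h1 : (1 : ZMod q) ≠ 0) :
    ∀ x y z : ZMod q, x ^ p + y ^ p + z ^ p = 0 → x = 0 ∨ y = 0 ∨ z = 0 := by
  intro x y z h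
  by_contra hne
  rw [not_or, not_or] at hne
  obtain ⟨hx, hy, hz⟩ := hne
  have hx' := (hS x).resolve_left hx
  have hy' := (hS y).resolve_left hy
  have hz' := (hS z).resolve_left hz
  rcases hx' with hx' | hx' <;> rcases hy' with hy' | hy' <;> rcases hz' with hz' | hz' <;>
    rw [hx', hy', hz'] at h
  · exact h3 (by rw [← h]; ring)
  · exact h1 (by rw [← h]; ring)
  · exact h1 (by rw [← h]; ring)
  · exact h1 (by rw [← neg_eq_zero, ← h]; ring)
  · exact h1 (by rw [← h]; ring)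
  · exact h1 (by rw [← neg_eq_zero, ← h]; ring)
  · exact h1 (by rw [← neg_eq_zero, ← h]; ring)
  · exact h3 (by rw [← neg_eq_zero, ← h]; ring)

/-- Condition (1) when the nonzero `p`-th powers of `ZMod q` are `±1, ±i` (`q = 4p + 1`). -/
lemma cond1_of_four {p q : ℕ} (i : ZMod q)
    (hS : ∀ x : ZMod q, x = 0 ∨ x ^ p = 1 ∨ x ^ p = -1 ∨ x ^ p = i ∨ x ^ p = -i)
    (hT : ∀ u v w : Fin 4, (![1, -1, i, -i] u : ZMod q) + ![1, -1, i, -i] v + ![1, -1, i, -i] w ≠ 0) :
    ∀ x y z : ZMod q, x ^ p + y ^ p + z ^ p = 0 → x = 0 ∨ y = 0 ∨ z = 0 := by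
  intro x y z h
  by_contra hne
  rw [not_or, not_or] at hne
  obtain ⟨hx, hy, hz⟩ := hne
  have key : ∀ t : ZMod q, t ≠ 0 → ∃ u : Fin 4, t ^ p = ![1, -1, i, -i] u := by
    intro t ht
    rcases (hS t).resolve_left ht with h | h | h | h
    · exact ⟨0, by simp [h]⟩
    · exact ⟨1, by simp [h]⟩
    · exact ⟨2, by simp [h]⟩
    · exact ⟨3, by simp [h]⟩
  obtain ⟨u, hu⟩ := key x hx
  obtain ⟨v, hv⟩ := key y hy
  obtain ⟨w, hw⟩ := key z hz
  rw [hu, hv, hw] at h
  exact hT u v w h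

instance fact_prime_eleven : Fact (Nat.Prime 11) := ⟨by norm_num⟩
instance fact_prime_twentythree : Fact (Nat.Prime 23) := ⟨by norm_num⟩
instance fact_prime_twentynine : Fact (Nat.Prime 29) := ⟨by norm_num⟩
instance fact_prime_fiftythree : Fact (Nat.Prime 53) := ⟨by norm_num⟩

theorem caseI_five (a b c : ℤ) (h : a ^ 5 + b ^ 5 = c ^ 5) (hab : IsCoprime a b)
    (hdiv : ¬ ((5 : ℕ) : ℤ) ∣ a * b * c) : False := by
  refine caseI_of_aux (p := 5) (q := 11) (by norm_num) (by decide) (by norm_num) ?_ ?_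
    a b c h hab hdiv
  · exact cond1_of_two (by decide) (by decide) (by decide)
  · decide

theorem caseI_eleven (a b c : ℤ) (h : a ^ 11 + b ^ 11 = c ^ 11) (hab : IsCoprime a b)
    (hdiv : ¬ ((11 : ℕ) : ℤ) ∣ a * b * c) : False := by
  refine caseI_of_aux (p := 11) (q := 23) (by norm_num) (by decide) (by norm_num) ?_ ?_
    a b c h hab hdiv
  · exact cond1_of_two (by decide) (by decide) (by decide)
  · decide

theorem caseI_seven (a b c : ℤ) (h : a ^ 7 + b ^ 7 = c ^ 7) (hab : IsCoprime a b)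
    (hdiv : ¬ ((7 : ℕ) : ℤ) ∣ a * b * c) : False := by
  refine caseI_of_aux (p := 7) (q := 29) (by norm_num) (by decide) (by norm_num) ?_ ?_
    a b c h hab hdiv
  · exact cond1_of_four 12 (by decide) (by decide)
  · decide

theorem caseI_thirteen (a b c : ℤ) (h : a ^ 13 + b ^ 13 = c ^ 13) (hab : IsCoprime a b)
    (hdiv : ¬ ((13 : ℕ) : ℤ) ∣ a * b * c) : False := by
  refine caseI_of_aux (p := 13) (q := 53) (by norm_num) (by decide) (by norm_num) ?_ ?_
    a b c h hab hdiv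
  · exact cond1_of_four 23 (by decide) (by decide)
  · decide

end Fermat.Agent.Lib.FLTp.CaseI
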