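import Mathlib

/-!
# Generic Kummer descent for the second case of Fermat's Last Theorem (abstract core)

`R` is a principal ideal domain containing a primitive `p`-th root of unity `ζ` (`p` an odd prime)
such that `ζ - 1` is prime with residue ring of cardinality `p`, `p ∣ (ζ - 1) ^ p`, `p`-th powers
are congruent to rational integers modulo `p`, and Kummer's lemma holds.  Then the equation
`x ^ p + y ^ p = ε * z ^ p` has no solution with `ε` a unit, `x`, `y` coprime and prime to `ζ - 1`,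
and `z ≠ 0` divisible by `ζ - 1`.
-/

set_option autoImplicit false

namespace Fermat.Agent.Lib.FLTp.CaseII

open Finset Polynomial

/-- The hypotheses needed for the descent. -/
structure CycloData (R : Type*) [CommRing R] (p : ℕ) (ζ : R) : Prop where
  prime_p : p.Prime
  ne_two : p ≠ 2
  prim : IsPrimitiveRoot ζ p
  prime_lam : Prime (ζ - 1)
  card_quot : Nat.card (R ⧸ Ideal.span {ζ - 1}) = p
  p_dvd_lam_pow : (p : R) ∣ (ζ - 1) ^ p
  pow_congr_int : ∀ x : R, ∃ n : ℤ, (p : R) ∣ x ^ p - n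
  kummer : ∀ u : Rˣ, (∃ n : ℤ, (p : R) ∣ (u : R) - n) → ∃ v : Rˣ, u = v ^ p

variable {R : Type*} [CommRing R] [IsDomain R] {p : ℕ} {ζ : R}

namespace CycloData

variable (D : CycloData R p ζ)
include D

lemma odd : Odd p := D.prime_p.odd_of_ne_two D.ne_two

lemma three_le : 3 ≤ p := by
  have := D.prime_p.two_le
  have := D.ne_two
  omega

lemma one_mem : (1 : R) ∈ nthRootsFinset p (1 : R) := by
  rw [mem_nthRootsFinset D.prime_p.pos]; simp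

lemma zeta_mem : ζ ∈ nthRootsFinset p (1 : R) := by
  rw [mem_nthRootsFinset D.prime_p.pos]; exact D.prim.pow_eq_one

lemma zeta_pow_mem (k : ℕ) : ζ ^ k ∈ nthRootsFinset p (1 : R) := by
  rw [mem_nthRootsFinset D.prime_p.pos, ← pow_mul, mul_comm, pow_mul, D.prim.pow_eq_one, one_pow]

lemma lam_dvd_sub {μ ν : R} (hμ : μ ∈ nthRootsFinset p (1 : R))
    (hν : ν ∈ nthRootsFinset p (1 : R)) : ζ - 1 ∣ μ - ν :=
  D.prim.sub_one_dvd_sub D.prime_p hμ hν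

lemma assoc_sub {μ ν : R} (hμ : μ ∈ nthRootsFinset p (1 : R))
    (hν : ν ∈ nthRootsFinset p (1 : R)) (h : μ ≠ ν) : Associated (ζ - 1) (μ - ν) :=
  D.prim.nthRootsFinset_pairwise_associated_sub_one_sub_of_prime D.prime_p hμ hν h

lemma lam_dvd_p : ζ - 1 ∣ (p : R) :=
  sub_one_dvd_natCast_of_pow_eq_one D.prim.pow_eq_one (D.prim.ne_one D.prime_p.one_lt)

lemma isUnit_mem {μ : R} (hμ : μ ∈ nthRootsFinset p (1 : R)) : IsUnit μ := by
  rw [mem_nthRootsFinset D.prime_p.pos] at hμ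
  exact IsUnit.of_pow_eq_one hμ D.prime_p.ne_zero

lemma isUnit_one_add_zeta : IsUnit (1 + ζ) := by
  have h := D.prim.geom_sum_isUnit D.prime_p.two_le (j := 2)
    ((Nat.coprime_primes Nat.prime_two D.prime_p).2 (Ne.symm D.ne_two))
  simpa [Finset.sum_range_succ] using h

lemma factorization (x y : R) :
    x ^ p + y ^ p = ∏ μ ∈ nthRootsFinset p (1 : R), (x + μ * y) :=
  D.prim.pow_add_pow_eq_prod_add_mul x y D.odd

lemma lam_dvd_all {x y z : R} {ε : Rˣ} (H : x ^ p + y ^ p = ε * z ^ p) (hz : ζ - 1 ∣ z) :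
    ∀ μ ∈ nthRootsFinset p (1 : R), ζ - 1 ∣ x + μ * y := by
  have h1 : ζ - 1 ∣ ∏ μ ∈ nthRootsFinset p (1 : R), (x + μ * y) := by
    rw [← D.factorization, H]
    exact Dvd.dvd.mul_left (dvd_pow hz D.prime_p.ne_zero) _
  obtain ⟨μ0, hμ0, h0⟩ := (D.prime_lam.dvd_finsetProd_iff _).1 h1
  intro μ hμ
  have : x + μ * y = (x + μ0 * y) + (μ - μ0) * y := by ring
  rw [this]
  exact dvd_add h0 (Dvd.dvd.mul_right (D.lam_dvd_sub hμ hμ0) _)

/-- Pigeonhole: one of the factors `x + μ * y` is divisible by `(ζ - 1) ^ 2`. -/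
lemma exists_sq_dvd {x y z : R} {ε : Rˣ} (H : x ^ p + y ^ p = ε * z ^ p) (hz : ζ - 1 ∣ z)
    (hy : ¬ ζ - 1 ∣ y) :
    ∃ μ0 ∈ nthRootsFinset p (1 : R), (ζ - 1) ^ 2 ∣ x + μ0 * y := by
  have hall := D.lam_dvd_all H hz
  have hex : ∀ μ : R, ∃ a : R, μ ∈ nthRootsFinset p (1 : R) → x + μ * y = (ζ - 1) * a := by
    intro μ
    by_cases hμ : μ ∈ nthRootsFinset p (1 : R)
    · obtain ⟨a, ha⟩ := hall μ hμ
      exact ⟨a, fun _ => ha⟩
    · exact ⟨0, fun h => absurd h hμ⟩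
  choose a ha using hex
  let f : (nthRootsFinset p (1 : R)) → R ⧸ Ideal.span {ζ - 1} :=
    fun μ => Ideal.Quotient.mk _ (a μ)
  have hinj : Function.Injective f := by
    intro μ ν hμν
    by_contra hne
    have hne' : (μ : R) ≠ ν := fun h => hne (Subtype.ext h)
    rw [Ideal.Quotient.eq, Ideal.mem_span_singleton] at hμν
    obtain ⟨u, hu⟩ := D.assoc_sub μ.2 ν.2 hne'
    have h1 : (ζ - 1) * (a μ - a ν) = (ζ - 1) * (u * y) := by
      rw [mul_sub, ← ha μ μ.2, ← ha ν ν.2, ← mul_assoc, hu]; ring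
    have h2 := mul_left_cancel₀ D.prime_lam.ne_zero h1
    rw [h2] at hμν
    exact hy ((Units.dvd_mul_left).1 hμν)
  have hfin : Finite (R ⧸ Ideal.span {ζ - 1}) :=
    Nat.finite_of_card_ne_zero (by rw [D.card_quot]; exact D.prime_p.ne_zero)
  have hcard : Nat.card (R ⧸ Ideal.span {ζ - 1}) ≤ Nat.card (nthRootsFinset p (1 : R)) := by
    rw [D.card_quot, Nat.card_eq_fintype_card, Fintype.card_coe, D.prim.card_nthRootsFinset]
  have hbij := hinj.bijective_of_nat_card_le hcard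
  obtain ⟨μ0, h0⟩ := hbij.2 0
  refine ⟨μ0, μ0.2, ?_⟩
  rw [ha μ0 μ0.2, pow_two]
  apply mul_dvd_mul_left
  rwa [Ideal.Quotient.eq_zero_iff_mem, Ideal.mem_span_singleton] at h0

variable [IsPrincipalIdealRing R]

/-- The descent step for a normalised solution (`(ζ - 1) ^ 2 ∣ x + y`). -/
lemma descent_normalised {x y z : R} {ε : Rˣ} (H : x ^ p + y ^ p = ε * z ^ p)
    (hy : ¬ ζ - 1 ∣ y) (hz0 : z ≠ 0) (hz : ζ - 1 ∣ z) (hcop : IsCoprime x y)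
    (hxy : (ζ - 1) ^ 2 ∣ x + y) :
    ∃ (x' y' z' : R) (ε' : Rˣ), x' ^ p + y' ^ p = ε' * z' ^ p ∧ ¬ ζ - 1 ∣ x' ∧ ¬ ζ - 1 ∣ y' ∧
      z' ≠ 0 ∧ ζ - 1 ∣ z' ∧ IsCoprime x' y' ∧ (ζ - 1) * z' ∣ z := by
  classical
  have hp0 : p ≠ 0 := D.prime_p.ne_zero
  have hlam0 : ζ - 1 ≠ 0 := D.prime_lam.ne_zero
  have hall := D.lam_dvd_all H hz
  have hex : ∀ μ : R, ∃ a : R, μ ∈ nthRootsFinset p (1 : R) → x + μ * y = (ζ - 1) * a := by
    intro μ
    by_cases hμ : μ ∈ nthRootsFinset p (1 : R)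
    · obtain ⟨a, ha⟩ := hall μ hμ
      exact ⟨a, fun _ => ha⟩
    · exact ⟨0, fun h => absurd h hμ⟩
  choose a ha using hex
  obtain ⟨z1, hz1⟩ := hz
  have hz10 : z1 ≠ 0 := by
    rintro rfl
    exact hz0 (by rw [hz1, mul_zero])
  -- the product of the `a μ`
  have hprod : ∏ μ ∈ nthRootsFinset p (1 : R), a μ = ε * z1 ^ p := by
    have h1 : (ζ - 1) ^ p * ∏ μ ∈ nthRootsFinset p (1 : R), a μ = (ζ - 1) ^ p * (ε * z1 ^ p) := by
      calc (ζ - 1) ^ p * ∏ μ ∈ nthRootsFinset p (1 : R), a μ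
          = ∏ μ ∈ nthRootsFinset p (1 : R), ((ζ - 1) * a μ) := by
            rw [Finset.prod_mul_distrib, Finset.prod_const, D.prim.card_nthRootsFinset]
        _ = ∏ μ ∈ nthRootsFinset p (1 : R), (x + μ * y) :=
            Finset.prod_congr rfl (fun μ hμ => (ha μ hμ).symm)
        _ = (ζ - 1) ^ p * (ε * z1 ^ p) := by
            rw [← D.factorization, H, hz1, mul_pow]; ring
    exact mul_left_cancel₀ (pow_ne_zero _ hlam0) h1
  -- differences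
  have hdiff : ∀ μ ∈ nthRootsFinset p (1 : R), ∀ ν ∈ nthRootsFinset p (1 : R), μ ≠ ν →
      ∃ u : Rˣ, a μ - a ν = u * y ∧ ν * a μ - μ * a ν = -(u * x) := by
    intro μ hμ ν hν hne
    obtain ⟨u, hu⟩ := D.assoc_sub hμ hν hne
    refine ⟨u, ?_, ?_⟩
    · apply mul_left_cancel₀ hlam0
      rw [mul_sub, ← ha μ hμ, ← ha ν hν, ← mul_assoc, hu]; ring
    · apply mul_left_cancel₀ hlam0
      have e1 : (ζ - 1) * (ν * a μ - μ * a ν) = ν * ((ζ - 1) * a μ) - μ * ((ζ - 1) * a ν) := by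
        ring
      rw [e1, ← ha μ hμ, ← ha ν hν]
      have e2 : (ζ - 1) * -(↑u * x) = -((ζ - 1) * u) * x := by ring
      rw [e2, hu]; ring
  -- coprimality
  have hcopa : ∀ μ ∈ nthRootsFinset p (1 : R), ∀ ν ∈ nthRootsFinset p (1 : R), μ ≠ ν →
      IsCoprime (a μ) (a ν) := by
    intro μ hμ ν hν hne
    obtain ⟨u, h1, h2⟩ := hdiff μ hμ ν hν hne
    obtain ⟨s, t, hst⟩ := hcop
    refine ⟨↑u⁻¹ * (t - s * ν), ↑u⁻¹ * (s * μ - t), ?_⟩
    have e : ↑u⁻¹ * (t - s * ν) * a μ + ↑u⁻¹ * (s * μ - t) * a ν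
        = ↑u⁻¹ * (t * (a μ - a ν) - s * (ν * a μ - μ * a ν)) := by ring
    rw [e, h1, h2]
    have e' : (↑u⁻¹ : R) * (t * (↑u * y) - s * -(↑u * x)) = (↑u⁻¹ * ↑u) * (s * x + t * y) := by
      ring
    rw [e', hst, Units.inv_mul, one_mul]
  -- `ζ - 1` divides `a 1` and no other `a μ`
  have ha1 : ζ - 1 ∣ a 1 := by
    have h := ha 1 D.one_mem
    rw [one_mul] at h
    rw [h, pow_two] at hxy
    exact (mul_dvd_mul_iff_left hlam0).1 hxy
  have hnot : ∀ μ ∈ nthRootsFinset p (1 : R), μ ≠ 1 → ¬ ζ - 1 ∣ a μ := by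
    intro μ hμ hne hdvd
    obtain ⟨u, h1, -⟩ := hdiff μ hμ 1 D.one_mem hne
    have : ζ - 1 ∣ ↑u * y := h1 ▸ dvd_sub hdvd ha1
    exact hy ((Units.dvd_mul_left).1 this)
  -- each `a μ` is a unit times a `p`-th power
  have hpow : ∀ μ ∈ nthRootsFinset p (1 : R), ∃ d : R, Associated (d ^ p) (a μ) := by
    intro μ hμ
    have hc : IsCoprime (a μ) (↑ε⁻¹ * ∏ ν ∈ (nthRootsFinset p (1 : R)).erase μ, a ν) := by
      rw [isCoprime_mul_unit_left_right (Units.isUnit _)]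
      apply IsCoprime.prod_right
      intro ν hν
      exact hcopa μ hμ ν (Finset.mem_of_mem_erase hν) (Finset.ne_of_mem_erase hν).symm
    have he : a μ * (↑ε⁻¹ * ∏ ν ∈ (nthRootsFinset p (1 : R)).erase μ, a ν) = z1 ^ p := by
      have : a μ * ∏ ν ∈ (nthRootsFinset p (1 : R)).erase μ, a ν = ε * z1 ^ p := by
        rw [Finset.mul_prod_erase _ _ hμ, hprod]
      calc a μ * (↑ε⁻¹ * ∏ ν ∈ (nthRootsFinset p (1 : R)).erase μ, a ν)
          = ↑ε⁻¹ * (a μ * ∏ ν ∈ (nthRootsFinset p (1 : R)).erase μ, a ν) := by ring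
        _ = z1 ^ p := by rw [this, ← mul_assoc, Units.inv_mul, one_mul]
    exact exists_associated_pow_of_mul_eq_pow' hc he
  -- the three roots `1`, `ζ`, `ζ ^ (p - 1)`
  have h3 := D.three_le
  have hζ1 : ζ ≠ 1 := D.prim.ne_one D.prime_p.one_lt
  have hζi1 : ζ ^ (p - 1) ≠ 1 := D.prim.pow_ne_one_of_pos_of_lt (by omega) (by omega)
  have hζζi : ζ ≠ ζ ^ (p - 1) := by
    intro h
    have h2 : ζ ^ (p - 2) ≠ 1 := D.prim.pow_ne_one_of_pos_of_lt (by omega) (by omega)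
    apply h2
    have hu : IsUnit ζ := D.isUnit_mem D.zeta_mem
    have e : ζ * ζ ^ (p - 2) = ζ * 1 := by
      rw [mul_one, ← pow_succ', show p - 2 + 1 = p - 1 by omega]
      exact h.symm
    exact hu.mul_left_cancel e
  have hζmul : ζ * ζ ^ (p - 1) = 1 := by
    rw [← pow_succ', show p - 1 + 1 = p by omega, D.prim.pow_eq_one]
  have hmζ := D.zeta_mem
  have hmζi := D.zeta_pow_mem (p - 1)
  -- the relation
  have hrel : a ζ + ζ * a (ζ ^ (p - 1)) = (1 + ζ) * a 1 := by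
    apply mul_left_cancel₀ hlam0
    have e1 : (ζ - 1) * (a ζ + ζ * a (ζ ^ (p - 1)))
        = (ζ - 1) * a ζ + ζ * ((ζ - 1) * a (ζ ^ (p - 1))) := by ring
    have e2 : (ζ - 1) * ((1 + ζ) * a 1) = (1 + ζ) * ((ζ - 1) * a 1) := by ring
    rw [e1, e2, ← ha ζ hmζ, ← ha _ hmζi, ← ha 1 D.one_mem]
    have e3 : ζ * (x + ζ ^ (p - 1) * y) = ζ * x + (ζ * ζ ^ (p - 1)) * y := by ring
    rw [e3, hζmul]; ring
  obtain ⟨ρ0, ε0, hρ0⟩ := hpow 1 D.one_mem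
  obtain ⟨ρ1, ε1, hρ1⟩ := hpow ζ hmζ
  obtain ⟨ρ2, ε2, hρ2⟩ := hpow _ hmζi
  -- divisibility properties of the ρ's
  have hρ0dvd : ζ - 1 ∣ ρ0 := by
    have : ζ - 1 ∣ ρ0 ^ p * ε0 := hρ0 ▸ ha1
    exact D.prime_lam.dvd_of_dvd_pow ((Units.dvd_mul_right).1 this)
  have hρ1not : ¬ ζ - 1 ∣ ρ1 := by
    intro h
    apply hnot ζ hmζ hζ1
    rw [← hρ1]
    exact Dvd.dvd.mul_right (dvd_pow h hp0) _
  have hρ2not : ¬ ζ - 1 ∣ ρ2 := by
    intro h
    apply hnot _ hmζi hζi1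
    rw [← hρ2]
    exact Dvd.dvd.mul_right (dvd_pow h hp0) _
  have ha0 : ∀ μ ∈ nthRootsFinset p (1 : R), a μ ≠ 0 := by
    intro μ hμ h0
    have : ∏ ν ∈ nthRootsFinset p (1 : R), a ν = 0 := Finset.prod_eq_zero hμ h0
    rw [hprod] at this
    exact (mul_ne_zero (Units.ne_zero ε) (pow_ne_zero _ hz10)) this
  have hρ00 : ρ0 ≠ 0 := by
    rintro rfl
    apply ha0 1 D.one_mem
    rw [← hρ0, zero_pow hp0, zero_mul]
  -- `ρ0 ∣ z1`
  have hρ0z1 : ρ0 ∣ z1 := by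
    have h1 : ρ0 ^ p ∣ z1 ^ p := by
      have h2 : a 1 ∣ ε * z1 ^ p := by
        rw [← hprod]
        exact Finset.dvd_prod_of_mem _ D.one_mem
      have h3 : ρ0 ^ p ∣ ε * z1 ^ p := Dvd.dvd.trans ⟨ε0, hρ0.symm⟩ h2
      exact (Units.dvd_mul_left).1 h3
    exact (UniqueFactorizationMonoid.pow_dvd_pow_iff_dvd hp0).1 h1
  -- Kummer's lemma applied to the unit `η' = ε1⁻¹ * ζ * ε2`
  obtain ⟨uζ, huζ⟩ := D.isUnit_mem hmζ
  obtain ⟨u1ζ, hu1ζ⟩ := D.isUnit_one_add_zeta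
  have hmain : ρ1 ^ p + ↑(ε1⁻¹ * uζ * ε2) * ρ2 ^ p = ↑(ε1⁻¹ * u1ζ * ε0) * ρ0 ^ p := by
    have e1 : ρ1 ^ p + ↑(ε1⁻¹ * uζ * ε2) * ρ2 ^ p
        = ↑ε1⁻¹ * (ρ1 ^ p * ε1 + ζ * (ρ2 ^ p * ε2)) := by
      push_cast
      rw [huζ]
      have : (↑ε1⁻¹ : R) * (ρ1 ^ p * ε1 + ζ * (ρ2 ^ p * ε2))
          = (↑ε1⁻¹ * ↑ε1) * ρ1 ^ p + ↑ε1⁻¹ * ζ * ↑ε2 * ρ2 ^ p := by ring
      rw [this, Units.inv_mul, one_mul]
    rw [e1, hρ1, hρ2, hrel, ← hρ0]
    push_cast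
    rw [hu1ζ]; ring
  have hpdvd : (p : R) ∣ ρ0 ^ p :=
    D.p_dvd_lam_pow.trans (pow_dvd_pow_of_dvd hρ0dvd p)
  obtain ⟨n1, hn1⟩ := D.pow_congr_int ρ1
  obtain ⟨n2, hn2⟩ := D.pow_congr_int ρ2
  have hn2p : ¬ (p : ℤ) ∣ n2 := by
    intro h
    have h1 : (p : R) ∣ (n2 : R) := by
      obtain ⟨k, hk⟩ := h
      exact ⟨(k : R), by rw [hk]; push_cast; ring⟩
    have h2 : (p : R) ∣ ρ2 ^ p := (dvd_sub_left h1).1 hn2
    exact hρ2not (D.prime_lam.dvd_of_dvd_pow (D.lam_dvd_p.trans h2))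
  have hcopn : IsCoprime (n2 : ℤ) (p : ℤ) := by
    rw [isCoprime_comm]
    exact (Nat.prime_iff_prime_int.1 D.prime_p).coprime_iff_not_dvd.2 hn2p
  obtain ⟨k, l, hkl⟩ := hcopn
  have hkum : ∃ n : ℤ, (p : R) ∣ ((ε1⁻¹ * uζ * ε2 : Rˣ) : R) - n := by
    refine ⟨-(k * n1), ?_⟩
    set η : R := ((ε1⁻¹ * uζ * ε2 : Rˣ) : R) with hη
    have hsum : (p : R) ∣ ρ1 ^ p + η * ρ2 ^ p := by
      rw [hmain]; exact Dvd.dvd.mul_left hpdvd _
    have hkl' : (k : R) * n2 + l * p = 1 := by exact_mod_cast congrArg (Int.cast : ℤ → R) hkl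
    have e : η - ((-(k * n1) : ℤ) : R)
        = k * (ρ1 ^ p + η * ρ2 ^ p) - k * (ρ1 ^ p - n1) - k * η * (ρ2 ^ p - n2)
          + (p : R) * (l * η) := by
      have : η = η * ((k : R) * n2 + l * p) := by rw [hkl', mul_one]
      push_cast
      nth_rewrite 1 [this]
      ring
    rw [e]
    exact dvd_add (dvd_sub (dvd_sub (Dvd.dvd.mul_left hsum _) (Dvd.dvd.mul_left hn1 _))
      (Dvd.dvd.mul_left hn2 _)) (dvd_mul_right _ _)
  obtain ⟨v, hv⟩ := D.kummer _ hkum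
  refine ⟨ρ1, v * ρ2, ρ0, ε1⁻¹ * u1ζ * ε0, ?_, hρ1not, ?_, hρ00, hρ0dvd, ?_, ?_⟩
  · rw [mul_pow, ← hmain, hv]; push_cast; ring
  · intro h
    exact hρ2not ((Units.dvd_mul_left).1 h)
  · have hc := hcopa ζ hmζ _ hmζi hζζi
    rw [← hρ1, ← hρ2] at hc
    have hc' : IsCoprime (ρ1 ^ p) (ρ2 ^ p) :=
      (isCoprime_mul_unit_right_left (Units.isUnit ε1) _ _).1
        ((isCoprime_mul_unit_right_right (Units.isUnit ε2) _ _).1 hc)
    have hc'' : IsCoprime ρ1 ρ2 := (IsCoprime.pow_iff D.prime_p.pos D.prime_p.pos).1 hc'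
    exact (isCoprime_mul_unit_left_right (Units.isUnit v) _ _).2 hc''
  · rw [hz1]
    exact mul_dvd_mul_left _ hρ0z1

/-- Every solution has `z` divisible by arbitrarily large powers of `ζ - 1`. -/
lemma pow_dvd_of_solution (n : ℕ) : ∀ {x y z : R} {ε : Rˣ}, x ^ p + y ^ p = ε * z ^ p →
    ¬ ζ - 1 ∣ y → z ≠ 0 → ζ - 1 ∣ z → IsCoprime x y → (ζ - 1) ^ n ∣ z := by
  induction n with
  | zero => intros; simp
  | succ n ih =>
    intro x y z ε H hy hz0 hz hcop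
    obtain ⟨μ0, hμ0, hsq⟩ := D.exists_sq_dvd H hz hy
    have hu := D.isUnit_mem hμ0
    have hμ0p : μ0 ^ p = 1 := (mem_nthRootsFinset D.prime_p.pos 1).1 hμ0
    have H' : x ^ p + (μ0 * y) ^ p = ε * z ^ p := by rw [mul_pow, hμ0p, one_mul, H]
    have hy' : ¬ ζ - 1 ∣ μ0 * y := fun h => hy ((hu.dvd_mul_left).1 h)
    have hcop' : IsCoprime x (μ0 * y) := (isCoprime_mul_unit_left_right hu _ _).2 hcop
    obtain ⟨x', y', z', ε', H'', -, hy'', hz0', hz', hcop'', hdvd⟩ :=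
      D.descent_normalised H' hy' hz0 hz hcop' hsq
    have := ih H'' hy'' hz0' hz' hcop''
    rw [pow_succ']
    exact (mul_dvd_mul_left _ this).trans hdvd

/-- **Second case of Fermat's Last Theorem, generalized equation**: no solutions. -/
theorem no_solution {x y z : R} {ε : Rˣ} (hy : ¬ ζ - 1 ∣ y) (hz0 : z ≠ 0) (hz : ζ - 1 ∣ z)
    (hcop : IsCoprime x y) : x ^ p + y ^ p ≠ ε * z ^ p := by
  intro H
  have hfin : FiniteMultiplicity (ζ - 1) z :=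
    FiniteMultiplicity.of_not_isUnit D.prime_lam.not_isUnit hz0
  obtain ⟨n, hn⟩ := hfin
  exact hn (D.pow_dvd_of_solution (n + 1) H hy hz0 hz hcop)

end CycloData

end Fermat.Agent.Lib.FLTp.CaseII
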