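import Mathlib
import Fermat.Agent.Lib.FLTp.CaseIICore

/-!
# Second case of Fermat's Last Theorem for a prime `p` such that `ℤ[ζ_p]` is a PID and
Kummer's lemma holds.
-/

set_option autoImplicit false

namespace Fermat.Agent.Lib.FLTp.CaseII

open NumberField Polynomial

section

variable {p : ℕ} [hp : Fact p.Prime] {K : Type*} [Field K] [NumberField K]
  [hK : IsCyclotomicExtension {p} ℚ K] {ζ : K} (hζ : IsPrimitiveRoot ζ p)

include hζ in
lemma pow_congr_int_aux (x : 𝓞 K) : ∃ n : ℤ, (p : 𝓞 K) ∣ x ^ p - n := by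
  have htop : Algebra.adjoin ℤ {hζ.toInteger} = ⊤ := by
    rw [← hζ.integralPowerBasis_gen]
    exact hζ.integralPowerBasis.adjoin_gen_eq_top
  have hx : x ∈ Algebra.adjoin ℤ {hζ.toInteger} := by rw [htop]; trivial
  induction hx using Algebra.adjoin_induction with
  | mem y hy =>
    rw [Set.mem_singleton_iff] at hy
    refine ⟨1, ?_⟩
    rw [hy, hζ.toInteger_isPrimitiveRoot.pow_eq_one]
    simp
  | algebraMap r =>
    refine ⟨r ^ p, ?_⟩
    simp
  | add y z _ _ hy hz =>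
    obtain ⟨n, hn⟩ := hy
    obtain ⟨m, hm⟩ := hz
    obtain ⟨r, hr⟩ := exists_add_pow_prime_eq hp.out y z
    refine ⟨n + m, ?_⟩
    have : (y + z) ^ p - ((n + m : ℤ) : 𝓞 K) = (y ^ p - n) + (z ^ p - m) + p * (y * z * r) := by
      rw [hr]; push_cast; ring
    rw [this]
    exact dvd_add (dvd_add hn hm) (dvd_mul_right _ _)
  | mul y z _ _ hy hz =>
    obtain ⟨n, hn⟩ := hy
    obtain ⟨m, hm⟩ := hz
    refine ⟨n * m, ?_⟩
    have : (y * z) ^ p - ((n * m : ℤ) : 𝓞 K) = (y ^ p - n) * z ^ p + n * (z ^ p - m) := by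
      rw [mul_pow]; push_cast; ring
    rw [this]
    exact dvd_add (Dvd.dvd.mul_right hn _) (Dvd.dvd.mul_left hm _)

/-- The cyclotomic ring of integers satisfies the hypotheses of the descent, provided it is
a PID (not needed here) and Kummer's lemma holds. -/
theorem cycloData (hp2 : p ≠ 2)
    (hKum : ∀ u : (𝓞 K)ˣ, (∃ n : ℤ, (p : 𝓞 K) ∣ (u : 𝓞 K) - n) → ∃ v : (𝓞 K)ˣ, u = v ^ p) :
    CycloData (𝓞 K) p hζ.toInteger where
  prime_p := hp.out
  ne_two := hp2
  prim := hζ.toInteger_isPrimitiveRoot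
  prime_lam := hζ.zeta_sub_one_prime'
  card_quot := by
    have hK' : IsCyclotomicExtension {p ^ (0 + 1)} ℚ K := by simpa using hK
    have hζ' : IsPrimitiveRoot ζ (p ^ (0 + 1)) := by simpa using hζ
    have h := IsCyclotomicExtension.Rat.absNorm_span_zeta_sub_one p 0 hζ'
    have h2 : Nat.card (𝓞 K ⧸ Ideal.span {hζ.toInteger - 1})
        = Ideal.absNorm (Ideal.span {hζ'.toInteger - 1}) := by
      rw [Ideal.absNorm_apply, Submodule.cardQuot_apply]
    rw [h2, h]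
  p_dvd_lam_pow := by
    have h := IsCyclotomicExtension.Rat.associated_zeta_sub_one_pow_prime p hζ
    exact h.symm.dvd.trans (pow_dvd_pow _ (Nat.sub_le p 1))
  pow_congr_int := pow_congr_int_aux hζ
  kummer := hKum

variable (K) in
include hK in
/-- Second case, with `p ∣ z`. -/
theorem caseII_of_dvd_z (hp2 : p ≠ 2) (hPID : IsPrincipalIdealRing (𝓞 K))
    (hKum : ∀ u : (𝓞 K)ˣ, (∃ n : ℤ, (p : 𝓞 K) ∣ (u : 𝓞 K) - n) → ∃ v : (𝓞 K)ˣ, u = v ^ p)
    {x y z : ℤ} (H : x ^ p + y ^ p = z ^ p) (hcop : IsCoprime x y) (hz : (p : ℤ) ∣ z)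
    (hz0 : z ≠ 0) : False := by
  have hζ := IsCyclotomicExtension.zeta_spec p ℚ K
  have D := cycloData hζ hp2 hKum
  have hpZ : Prime (p : ℤ) := Nat.prime_iff_prime_int.1 hp.out
  have hK' : IsCyclotomicExtension {p ^ (0 + 1)} ℚ K := by simpa using hK
  have hζ' : IsPrimitiveRoot (IsCyclotomicExtension.zeta p ℚ K) (p ^ (0 + 1)) := by
    rw [zero_add, pow_one]; exact hζ
  have hiff : ∀ n : ℤ, hζ.toInteger - 1 ∣ (n : 𝓞 K) ↔ (p : ℤ) ∣ n := fun n =>
    IsCyclotomicExtension.Rat.zeta_sub_one_dvd_intCast_iff p 0 hζ'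
  have hy : ¬ (p : ℤ) ∣ y := by
    intro hy
    have hx : (p : ℤ) ∣ x ^ p := by
      have : x ^ p = z ^ p - y ^ p := by rw [← H]; ring
      rw [this]
      exact dvd_sub (dvd_pow hz hp.out.ne_zero) (dvd_pow hy hp.out.ne_zero)
    have hx' := hpZ.dvd_of_dvd_pow hx
    exact hpZ.not_isUnit (hcop.isUnit_of_dvd' hx' hy)
  refine D.no_solution (x := (x : 𝓞 K)) (y := (y : 𝓞 K)) (z := (z : 𝓞 K)) (ε := 1)
    ?_ ?_ ?_ ?_ ?_
  · rwa [hiff]
  · exact_mod_cast hz0
  · rwa [hiff]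
  · exact hcop.intCast
  · rw [Units.val_one, one_mul]
    exact_mod_cast congrArg (Int.cast : ℤ → 𝓞 K) H

variable (K) in
include hK in
/-- **Second case of Fermat's Last Theorem** for a prime `p` such that the ring of integers of the
`p`-th cyclotomic field is a PID and Kummer's lemma holds. -/
theorem caseII (hp2 : p ≠ 2) (hPID : IsPrincipalIdealRing (𝓞 K))
    (hKum : ∀ u : (𝓞 K)ˣ, (∃ n : ℤ, (p : 𝓞 K) ∣ (u : 𝓞 K) - n) → ∃ v : (𝓞 K)ˣ, u = v ^ p)
    (a b c : ℤ) (H : a ^ p + b ^ p = c ^ p) (hab : IsCoprime a b) (hdvd : (p : ℤ) ∣ a * b * c)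
    (h0 : a * b * c ≠ 0) : False := by
  have hpZ : Prime (p : ℤ) := Nat.prime_iff_prime_int.1 hp.out
  have hodd : Odd p := hp.out.odd_of_ne_two hp2
  have hp0 : p ≠ 0 := hp.out.ne_zero
  have ha0 : a ≠ 0 := fun h => h0 (by simp [h])
  have hb0 : b ≠ 0 := fun h => h0 (by simp [h])
  have hc0 : c ≠ 0 := fun h => h0 (by simp [h])
  have hpos : 0 < p := hp.out.pos
  have hac : IsCoprime a c := by
    have h1 : IsCoprime a (c ^ p) := by
      rw [← H]
      have : IsCoprime a (b ^ p) := hab.pow_right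
      have h2 : a ^ p + b ^ p = b ^ p + a * a ^ (p - 1) := by
        rw [← pow_succ', Nat.sub_add_cancel hpos]; ring
      rw [h2]
      exact this.add_mul_left_right _
    exact (IsCoprime.pow_right_iff hpos).1 h1
  have hbc : IsCoprime b c := by
    have h1 : IsCoprime b (c ^ p) := by
      rw [← H]
      have : IsCoprime b (a ^ p) := hab.symm.pow_right
      have h2 : a ^ p + b ^ p = a ^ p + b * b ^ (p - 1) := by
        rw [← pow_succ', Nat.sub_add_cancel hpos]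
      rw [h2]
      exact this.add_mul_left_right _
    exact (IsCoprime.pow_right_iff hpos).1 h1
  rcases hpZ.dvd_or_dvd hdvd with h | hc
  · rcases hpZ.dvd_or_dvd h with ha | hb
    · -- `p ∣ a`: `b ^ p + (-c) ^ p = (-a) ^ p`
      refine caseII_of_dvd_z K hp2 hPID hKum (x := b) (y := -c) (z := -a) ?_ hbc.neg_right
        ((dvd_neg).2 ha) (neg_ne_zero.2 ha0)
      rw [hodd.neg_pow, hodd.neg_pow, ← H]; ring
    · -- `p ∣ b`: `a ^ p + (-c) ^ p = (-b) ^ p`
      refine caseII_of_dvd_z K hp2 hPID hKum (x := a) (y := -c) (z := -b) ?_ hac.neg_right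
        ((dvd_neg).2 hb) (neg_ne_zero.2 hb0)
      rw [hodd.neg_pow, hodd.neg_pow, ← H]; ring
  · exact caseII_of_dvd_z K hp2 hPID hKum H hab hc hc0

end

end Fermat.Agent.Lib.FLTp.CaseII
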