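import Mathlib

/-!
# Case II of Fermat's Last Theorem for a prime exponent: reduction to the `λ`-adic equation (piece D0)

Given an integer solution `a ^ p + b ^ p = c ^ p` with `a`, `b` coprime, `a * b * c ≠ 0` and
`p ∣ a * b * c`, we produce a solution of `w ^ p + t ^ p = η * λ ^ (p * m) * x ^ p` in the ring of
integers of the `p`-th cyclotomic field, with `λ = ζ - 1`, `λ ∤ w t x`, `η` a unit and `1 ≤ m`.
Hence the descent statement `hdesc` implies Case II.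
-/

set_option autoImplicit false

open NumberField

namespace Fermat.Agent.Lib.FLTp.CaseIIReduce

/-- pairwise coprimality from the Fermat equation -/
theorem isCoprime_of_fermat {p : ℕ} (hp0 : p ≠ 0) {a b c : ℤ} (h : a ^ p + b ^ p = c ^ p)
    (hab : IsCoprime a b) : IsCoprime a c ∧ IsCoprime b c := by
  constructor
  · -- a prime dividing a and c divides b^p
    rw [Int.isCoprime_iff_gcd_eq_one]
    by_contra hg
    obtain ⟨q, hq, hqd⟩ := Nat.exists_prime_and_dvd hg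
    have hqa : (q : ℤ) ∣ a := (Int.natCast_dvd_natCast.mpr hqd).trans (Int.gcd_dvd_left a c)
    have hqc : (q : ℤ) ∣ c := (Int.natCast_dvd_natCast.mpr hqd).trans (Int.gcd_dvd_right a c)
    have hqb : (q : ℤ) ∣ b ^ p := by
      have : b ^ p = c ^ p - a ^ p := by linarith
      rw [this]
      exact dvd_sub (dvd_pow hqc hp0) (dvd_pow hqa hp0)
    have hqb' : (q : ℤ) ∣ b := (Nat.prime_iff_prime_int.mp hq).dvd_of_dvd_pow hqb
    have := hab.isUnit_of_dvd' hqa hqb'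
    exact (Nat.prime_iff_prime_int.mp hq).not_isUnit this
  · rw [Int.isCoprime_iff_gcd_eq_one]
    by_contra hg
    obtain ⟨q, hq, hqd⟩ := Nat.exists_prime_and_dvd hg
    have hqb : (q : ℤ) ∣ b := (Int.natCast_dvd_natCast.mpr hqd).trans (Int.gcd_dvd_left b c)
    have hqc : (q : ℤ) ∣ c := (Int.natCast_dvd_natCast.mpr hqd).trans (Int.gcd_dvd_right b c)
    have hqa : (q : ℤ) ∣ a ^ p := by
      have : a ^ p = c ^ p - b ^ p := by linarith
      rw [this]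
      exact dvd_sub (dvd_pow hqc hp0) (dvd_pow hqb hp0)
    have hqa' : (q : ℤ) ∣ a := (Nat.prime_iff_prime_int.mp hq).dvd_of_dvd_pow hqa
    have := hab.isUnit_of_dvd' hqa' hqb
    exact (Nat.prime_iff_prime_int.mp hq).not_isUnit this

/-- The core case: `p ∣ c`. -/
theorem caseII_of_descent_of_dvd_c (p : ℕ) [hp : Fact p.Prime] (K : Type*) [Field K] [NumberField K]
    [IsCyclotomicExtension {p} ℚ K] {ζ : K} (hζ : IsPrimitiveRoot ζ p)
    (hdesc : ∀ (w t x : 𝓞 K) (η : (𝓞 K)ˣ) (m : ℕ), 1 ≤ m →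
        ¬ (hζ.toInteger - 1) ∣ w → ¬ (hζ.toInteger - 1) ∣ t → ¬ (hζ.toInteger - 1) ∣ x →
        w ^ p + t ^ p ≠ (η : 𝓞 K) * (hζ.toInteger - 1) ^ (p * m) * x ^ p)
    (a b c : ℤ) (h : a ^ p + b ^ p = c ^ p) (hab : IsCoprime a b) (hdvd : (p : ℤ) ∣ c)
    (hc0 : c ≠ 0) : False := by
  have hp0 : p ≠ 0 := hp.out.ne_zero
  have hpp : Prime (p : ℤ) := Nat.prime_iff_prime_int.mp hp.out
  obtain ⟨hac, hbc⟩ := isCoprime_of_fermat hp0 h hab
  have hpa : ¬ (p : ℤ) ∣ a := fun hpa => hpp.not_isUnit (hac.isUnit_of_dvd' hpa hdvd)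
  have hpb : ¬ (p : ℤ) ∣ b := fun hpb => hpp.not_isUnit (hbc.isUnit_of_dvd' hpb hdvd)
  -- write c = p ^ k * c' with p ∤ c'
  have hfin : FiniteMultiplicity (p : ℤ) c :=
    Int.finiteMultiplicity_iff.mpr ⟨by
      simpa using hp.out.ne_one, hc0⟩
  obtain ⟨c', hc'eq, hc'⟩ := hfin.exists_eq_pow_mul_and_not_dvd
  set k := multiplicity (p : ℤ) c with hk
  have hk1 : 1 ≤ k := by
    by_contra hlt
    have hk0 : k = 0 := by omega
    rw [hk0, pow_zero, one_mul] at hc'eq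
    exact hc' (hc'eq ▸ hdvd)
  -- `p = u * λ ^ (p - 1)` in `𝓞 K`
  obtain ⟨u, hu⟩ := IsCyclotomicExtension.Rat.associated_zeta_sub_one_pow_prime p hζ
  have hlam_a : ¬ (hζ.toInteger - 1) ∣ ((a : ℤ) : 𝓞 K) := by
    rw [IsCyclotomicExtension.Rat.zeta_sub_one_dvd_intCast_iff' p hζ]; exact hpa
  have hlam_b : ¬ (hζ.toInteger - 1) ∣ ((b : ℤ) : 𝓞 K) := by
    rw [IsCyclotomicExtension.Rat.zeta_sub_one_dvd_intCast_iff' p hζ]; exact hpb
  have hlam_c : ¬ (hζ.toInteger - 1) ∣ ((c' : ℤ) : 𝓞 K) := by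
    rw [IsCyclotomicExtension.Rat.zeta_sub_one_dvd_intCast_iff' p hζ]; exact hc'
  have hm1 : 1 ≤ k * (p - 1) := by
    have : 1 ≤ p - 1 := by have := hp.out.two_le; omega
    exact Nat.one_le_iff_ne_zero.mpr (Nat.mul_ne_zero (by omega) (by omega))
  refine hdesc (a : 𝓞 K) (b : 𝓞 K) (c' : 𝓞 K) (u ^ (k * p)) (k * (p - 1)) hm1 hlam_a hlam_b hlam_c ?_
  have hcast : ((a : ℤ) : 𝓞 K) ^ p + ((b : ℤ) : 𝓞 K) ^ p = ((c : ℤ) : 𝓞 K) ^ p := by
    exact_mod_cast congrArg (fun z : ℤ => (z : 𝓞 K)) h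
  rw [hcast]
  have hcc : ((c : ℤ) : 𝓞 K) = ((p : ℕ) : 𝓞 K) ^ k * ((c' : ℤ) : 𝓞 K) := by
    conv_lhs => rw [hc'eq]
    push_cast
    rfl
  rw [hcc, ← hu]
  push_cast
  ring

/-- **Case II reduction.** The descent statement `hdesc` in `𝓞 K` implies Case II of Fermat's Last
Theorem for the exponent `p`. -/
theorem caseII_of_descent (p : ℕ) [hp : Fact p.Prime] (hp2 : p ≠ 2) (K : Type*) [Field K]
    [NumberField K] [IsCyclotomicExtension {p} ℚ K] {ζ : K} (hζ : IsPrimitiveRoot ζ p)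
    (hdesc : ∀ (w t x : 𝓞 K) (η : (𝓞 K)ˣ) (m : ℕ), 1 ≤ m →
        ¬ (hζ.toInteger - 1) ∣ w → ¬ (hζ.toInteger - 1) ∣ t → ¬ (hζ.toInteger - 1) ∣ x →
        w ^ p + t ^ p ≠ (η : 𝓞 K) * (hζ.toInteger - 1) ^ (p * m) * x ^ p)
    (a b c : ℤ) (h : a ^ p + b ^ p = c ^ p) (hab : IsCoprime a b) (hdvd : (p : ℤ) ∣ a * b * c)
    (h0 : a * b * c ≠ 0) : False := by
  have hp0 : p ≠ 0 := hp.out.ne_zero
  have hpp : Prime (p : ℤ) := Nat.prime_iff_prime_int.mp hp.out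
  have hodd : Odd p := hp.out.odd_of_ne_two hp2
  have ha0 : a ≠ 0 := fun h' => h0 (by rw [h']; ring)
  have hb0 : b ≠ 0 := fun h' => h0 (by rw [h']; ring)
  have hc0 : c ≠ 0 := fun h' => h0 (by rw [h']; ring)
  obtain ⟨hac, hbc⟩ := isCoprime_of_fermat hp0 h hab
  rcases hpp.dvd_or_dvd hdvd with hab' | hc
  · rcases hpp.dvd_or_dvd hab' with ha | hb
    · -- p ∣ a :  b^p + (-c)^p = (-a)^p
      refine caseII_of_descent_of_dvd_c p K hζ hdesc b (-c) (-a) ?_ ?_ ?_ ?_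
      · rw [hodd.neg_pow, hodd.neg_pow]; linarith
      · exact hbc.neg_right
      · exact (dvd_neg).mpr ha
      · exact neg_ne_zero.mpr ha0
    · -- p ∣ b :  a^p + (-c)^p = (-b)^p
      refine caseII_of_descent_of_dvd_c p K hζ hdesc a (-c) (-b) ?_ ?_ ?_ ?_
      · rw [hodd.neg_pow, hodd.neg_pow]; linarith
      · exact hac.neg_right
      · exact (dvd_neg).mpr hb
      · exact neg_ne_zero.mpr hb0
  · exact caseII_of_descent_of_dvd_c p K hζ hdesc a b c h hab hc hc0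

end Fermat.Agent.Lib.FLTp.CaseIIReduce
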