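import Mathlib
import Fermat.Prelude.Def_FLTPrelim_FreyPackage

/-!
# Glue: a Frey package with exponent `p` contradicts FLT for exponent `p`

`frey_false` reduces the emptiness of `FreyPackage` with `P.p = p` to Case I and Case II of
Fermat's Last Theorem for the exponent `p`, in the interface form used by the `FLTp` library.
-/

set_option autoImplicit false

namespace Fermat.Agent.Lib.FLTp.Glue

/-- Interface form of Case I for exponent `p`. -/
def CaseIStatement (p : ℕ) : Prop :=
  ∀ a b c : ℤ, a ^ p + b ^ p = c ^ p → IsCoprime a b → ¬ ((p : ℕ) : ℤ) ∣ a * b * c → False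

/-- Interface form of Case II for exponent `p`. -/
def CaseIIStatement (p : ℕ) : Prop :=
  ∀ a b c : ℤ, a ^ p + b ^ p = c ^ p → IsCoprime a b → ((p : ℕ) : ℤ) ∣ a * b * c →
    a * b * c ≠ 0 → False

theorem frey_false (P : FreyPackage) (p : ℕ) (hp : P.p = p)
    (hI : CaseIStatement p) (hII : CaseIIStatement p) : False := by
  have hFLT : P.a ^ p + P.b ^ p = P.c ^ p := hp ▸ P.hFLT
  have hcop : IsCoprime P.a P.b := by
    rw [Int.isCoprime_iff_gcd_eq_one]
    have h := P.hgcdab
    have h2 : ((Int.gcd P.a P.b : ℕ) : ℤ) = 1 := h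
    exact_mod_cast h2
  by_cases hdiv : ((p : ℕ) : ℤ) ∣ P.a * P.b * P.c
  · exact hII _ _ _ hFLT hcop hdiv P.habc0
  · exact hI _ _ _ hFLT hcop hdiv

/-- The cyclotomic field `CyclotomicField n ℚ` is a cyclotomic extension of `ℚ` with respect to the
canonical `ℚ`-algebra structure of a characteristic-zero field (the Mathlib instance is stated for
`CyclotomicField.algebra`). -/
theorem isCyclotomicExtension_cyclotomicField (n : ℕ) [NeZero n] :
    IsCyclotomicExtension {n} ℚ (CyclotomicField n ℚ) := by
  have h := CyclotomicField.isCyclotomicExtension n ℚ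
  have e : (DivisionRing.toRatAlgebra : Algebra ℚ (CyclotomicField n ℚ)) =
      CyclotomicField.algebra n ℚ := Subsingleton.elim _ _
  rw [e]
  exact h

end Fermat.Agent.Lib.FLTp.Glue
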